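/-
S55 / 33d-CL-DESCENT (helper35), part 1: transport of Herbrand pairs.

* an isomorphism of modules over an isomorphism of finite groups induces an isomorphism of the
  cyclic Herbrand pairs (`pairIsoOfEquiv`);
* hence the Herbrand pair of an arbitrary subquotient `(Q, B)` of `(G, A)` (helper99's
  `SubQuotData`) is the Herbrand pair of the canonical layer `(H ⧸ N, (res H A)^N)`;
* the first / second inequality in RELATIVE form (`FI`, `SI`: statements about all canonical
  layers of prime order) therefore hold for every subquotient of prime order.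
Mathlib + Herbrand54/HerbrandCyclic54/HerbrandHcyc54 (helper54) + SubQuot99 (helper99).
-/
import Mathlib
import Fermat.Agent.S55.HerbrandHcyc54
import Fermat.Agent.S55.SubQuot99

set_option autoImplicit false

namespace Fermat.Agent.S55.CLDescent35.Pairs

open Fermat.Agent.S55.Herbrand54 Fermat.Agent.S55.HerbrandCyclic54
open Fermat.Agent.S55.HerbrandHcyc54 Fermat.Agent.S55.SubQuot99 CategoryTheory

universe u

section Generic

variable {Q Q₁ : Type*} [Group Q] [Fintype Q] [Group Q₁] [Fintype Q₁]
variable {A B : Type*} [AddCommGroup A] [AddCommGroup B]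

/-- An isomorphism of modules over an isomorphism of groups induces an isomorphism of cyclic
Herbrand pairs. -/
def pairIsoOfEquiv (e : Q ≃* Q₁) (ρ : Q →* AddMonoid.End A) (ρ₁ : Q₁ →* AddMonoid.End B)
    (ε : A ≃+ B) (hε : ∀ (τ : Q) (x : A), ε (ρ τ x) = ρ₁ (e τ) (ε x)) (g : Q) :
    Pair.Iso (cyclicPair ρ g) (cyclicPair ρ₁ (e g)) where
  e := ε
  comm_f x := by
    rw [cyclicPair_f_apply, cyclicPair_f_apply, map_sub, hε]
  comm_g x := by
    rw [cyclicPair_g_apply, cyclicPair_g_apply, HerbrandCyclic54.normHom_apply,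
      HerbrandCyclic54.normHom_apply, map_sum]
    simp_rw [hε]
    exact Fintype.sum_equiv e.toEquiv _ _ (fun τ => rfl)

omit [Fintype Q] [Fintype Q₁] in
/-- generators are transported by group isomorphisms -/
theorem generator_map (e : Q ≃* Q₁) {g : Q} (hg : ∀ x, x ∈ Subgroup.zpowers g) :
    ∀ y, y ∈ Subgroup.zpowers (e g) := by
  intro y
  obtain ⟨n, hn⟩ := Subgroup.mem_zpowers_iff.1 (hg (e.symm y))
  refine Subgroup.mem_zpowers_iff.2 ⟨n, ?_⟩
  rw [← map_zpow, hn, MulEquiv.apply_symm_apply]

end Generic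

section SubQuot

variable {k G : Type u} [CommRing k] [Group G] (A : Rep.{u, u, u} k G)

/-- the canonical layer module `(res H A)^N` as a representation of `H ⧸ N` -/
noncomputable abbrev layer (H : Subgroup G) (N : Subgroup H) [N.Normal] : Rep.{u, u, u} k (H ⧸ N) :=
  (Rep.res H.subtype A).quotientToInvariants N

variable {A}
variable {Q : Type u} [Group Q] {B : Rep.{u, u, u} k Q}

/-- the Herbrand pair of a subquotient is the Herbrand pair of its canonical layer -/
noncomputable def subQuotPairIso (D : SubQuotData A Q B) [Fintype Q] [Fintype (D.H ⧸ D.N)] (g : Q) :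
    Pair.Iso (cyclicPair (repRhoM B) g) (cyclicPair (repRhoM (layer A D.H D.N)) (D.e g)) :=
  pairIsoOfEquiv D.e (repRhoM B) (repRhoM (layer A D.H D.N)) D.e'.toAddEquiv
    (fun τ x => LinearMap.congr_fun (D.e'_comp τ) x) g

variable (A)

/-- **First inequality, relative form** (the output of leaf 31): every canonical layer of order `p`
has a defined Herbrand quotient equal to `p`. -/
def FI (p : ℕ) : Prop :=
  ∀ (H : Subgroup G) (N : Subgroup H) [N.Normal] [Fintype (H ⧸ N)], Nat.card (H ⧸ N) = p →
    ∀ g : H ⧸ N, (∀ x, x ∈ Subgroup.zpowers g) →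
      (cyclicPair (repRhoM (layer A H N)) g).IsDefined ∧
        (cyclicPair (repRhoM (layer A H N)) g).q = p

/-- **Second inequality, relative form** (the output of leaf 32), for the layers whose group is
contained in a given subgroup `Z` (in the application: the subgroup fixing `ζ_p`). -/
def SI (p : ℕ) (Z : Subgroup G) : Prop :=
  ∀ (H : Subgroup G) (N : Subgroup H) [N.Normal] [Fintype (H ⧸ N)], H ≤ Z →
    Nat.card (H ⧸ N) = p → ∀ g : H ⧸ N, (∀ x, x ∈ Subgroup.zpowers g) →
      Nat.card (cyclicPair (repRhoM (layer A H N)) g).H0 ∣ p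

variable {A}

/-- the first inequality for an arbitrary subquotient of prime order -/
theorem FI.subQuot {p : ℕ} (h : FI A p) (D : SubQuotData A Q B) [Fintype Q] (hQ : Nat.card Q = p)
    (g : Q) (hg : ∀ x, x ∈ Subgroup.zpowers g) :
    (cyclicPair (repRhoM B) g).IsDefined ∧ (cyclicPair (repRhoM B) g).q = p := by
  let _ : Fintype (D.H ⧸ D.N) := Fintype.ofEquiv Q D.e.toEquiv
  have hc : Nat.card (D.H ⧸ D.N) = p := by rw [← hQ]; exact (Nat.card_congr D.e.toEquiv).symm
  obtain ⟨h1, h2⟩ := h D.H D.N hc (D.e g) (generator_map D.e hg)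
  exact ⟨(subQuotPairIso D g).isDefined_iff.2 h1, (subQuotPairIso D g).q_eq.trans h2⟩

/-- the second inequality for an arbitrary subquotient of prime order -/
theorem SI.subQuot {p : ℕ} {Z : Subgroup G} (h : SI A p Z) (D : SubQuotData A Q B) [Fintype Q]
    (hZ : D.H ≤ Z) (hQ : Nat.card Q = p) (g : Q) (hg : ∀ x, x ∈ Subgroup.zpowers g) :
    Nat.card (cyclicPair (repRhoM B) g).H0 ∣ p := by
  let _ : Fintype (D.H ⧸ D.N) := Fintype.ofEquiv Q D.e.toEquiv
  have hc : Nat.card (D.H ⧸ D.N) = p := by rw [← hQ]; exact (Nat.card_congr D.e.toEquiv).symm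
  have := h D.H D.N hZ hc (D.e g) (generator_map D.e hg)
  rwa [← Nat.card_congr (subQuotPairIso D g).equivH0.toEquiv] at this

end SubQuot

end Fermat.Agent.S55.CLDescent35.Pairs
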