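/-
S55 / 33d-CL-DESCENT (helper35), part 2: the reduction `K → K(μ_p)` of the second inequality,
in LAYER form (abstract; no number theory).

`P` a group, `A : Rep k P`, `N M ⊴ P` with `|P ⧸ N| = p` prime and `|P ⧸ M|` prime to `p`.
Then `M ⧸ (N ∩ M) ≃ P ⧸ N`, and the Tate group `Ĥ⁰` of the layer `(P ⧸ N, A^N)` injects into the
one of the layer `(M ⧸ (N ∩ M), A^{N ∩ M})`:
`|A^P / N_{P/N} A^N|  ∣  |A^M / N_{M/(N∩M)} A^{N∩M}|`.
(In the application `P = Gal(L/K)`, `N = Gal(L/K')`, `M = Gal(L/K(ζ_p))`.)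
Mathlib + Herbrand54/HerbrandCyclic54/HerbrandHcyc54 (helper54).
-/
import Mathlib
import Fermat.Agent.S55.HerbrandHcyc54

set_option autoImplicit false

namespace Fermat.Agent.S55.CLDescent35.Reduce

open Fermat.Agent.S55.Herbrand54 Fermat.Agent.S55.HerbrandCyclic54
open Fermat.Agent.S55.HerbrandHcyc54 CategoryTheory

universe u

/-! ### a divisibility for relative indices in commutative groups -/

section RelIndex

variable {V : Type*} [AddCommGroup V]

theorem relIndex_dvd_of_le_right (K : AddSubgroup V) {L₁ L₂ : AddSubgroup V} (h : L₁ ≤ L₂) :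
    K.relIndex L₁ ∣ K.relIndex L₂ := by
  have h1 : (K ⊓ L₂).relIndex (L₁ ⊔ (K ⊓ L₂)) = K.relIndex L₁ := by
    rw [AddSubgroup.relIndex_sup_right, ← AddSubgroup.inf_relIndex_right,
      inf_assoc, inf_eq_right.2 h, AddSubgroup.inf_relIndex_right]
  have h2 : (K ⊓ L₂).relIndex (L₁ ⊔ (K ⊓ L₂)) * (L₁ ⊔ (K ⊓ L₂)).relIndex L₂ =
      (K ⊓ L₂).relIndex L₂ :=
    AddSubgroup.relIndex_mul_relIndex _ _ _ le_sup_right (sup_le h inf_le_right)
  rw [AddSubgroup.inf_relIndex_right, h1] at h2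
  exact Dvd.intro _ h2

end RelIndex

variable {k P : Type u} [CommRing k] [Group P] (A : Rep.{u, u, u} k P)

/-! ### the ambient description of `H0` of a layer -/

section Ambient

variable (K : Subgroup P) [K.Normal]

/-- the `P`-invariants of `A`, as an additive subgroup -/
def invAll : AddSubgroup A.V where
  carrier := {v | ∀ x : P, A.ρ x v = v}
  zero_mem' := fun x => map_zero _
  add_mem' := fun {a b} ha hb x => by rw [map_add, ha x, hb x]
  neg_mem' := fun {a} ha x => by rw [map_neg, ha x]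

theorem mem_invAll (v : A.V) : v ∈ invAll A ↔ ∀ x : P, A.ρ x v = v := Iff.rfl

/-- the inclusion `A^K → A` as an additive map -/
noncomputable def incl : (A.quotientToInvariants K).V →+ A.V :=
  (Submodule.subtype (Representation.invariants (A.ρ.comp K.subtype))).toAddMonoidHom

theorem incl_injective : Function.Injective (incl A K) := Subtype.val_injective

theorem incl_rho (x : P) (b : (A.quotientToInvariants K).V) :
    incl A K ((A.quotientToInvariants K).ρ (x : P ⧸ K) b) = A.ρ x (incl A K b) := rfl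

theorem incl_inv (b : (A.quotientToInvariants K).V) (n : P) (hn : n ∈ K) :
    A.ρ n (incl A K b) = incl A K b := b.2 ⟨n, hn⟩

/-- an invariant vector as an element of `A^K` -/
def toInv (v : A.V) (hv : ∀ n ∈ K, A.ρ n v = v) : (A.quotientToInvariants K).V :=
  ⟨v, fun n => hv n.1 n.2⟩

theorem incl_toInv (v : A.V) (hv : ∀ n ∈ K, A.ρ n v = v) : incl A K (toInv A K v hv) = v := rfl

omit [K.Normal] in
theorem rho_eq_of_mk_eq (v : A.V) (hv : ∀ n ∈ K, A.ρ n v = v) {x y : P}
    (h : (x : P ⧸ K) = (y : P ⧸ K)) : A.ρ x v = A.ρ y v := by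
  have hmem : x⁻¹ * y ∈ K := QuotientGroup.eq.1 h
  have : y = x * (x⁻¹ * y) := by group
  rw [this, map_mul, Module.End.mul_apply, hv _ hmem]

variable [Fintype (P ⧸ K)]

/-- the norm of the layer `(P ⧸ K, A^K)`, computed on representatives -/
noncomputable def nrm (v : A.V) : A.V := ∑ q : P ⧸ K, A.ρ q.out v

theorem incl_normHom (b : (A.quotientToInvariants K).V) :
    incl A K (HerbrandCyclic54.normHom (repRhoM (A.quotientToInvariants K)) b) =
      nrm A K (incl A K b) := by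
  rw [HerbrandCyclic54.normHom_apply, map_sum]
  refine Finset.sum_congr rfl (fun q _ => ?_)
  rw [repRhoM_apply]
  conv_lhs => rw [← QuotientGroup.out_eq' q]
  rfl

omit [K.Normal] in
/-- the norm can be computed on any system of representatives -/
theorem nrm_eq_sum {ι : Type*} [Fintype ι] (φ : ι ≃ P ⧸ K) (r : ι → P)
    (hr : ∀ i, (r i : P ⧸ K) = φ i) (v : A.V) (hv : ∀ n ∈ K, A.ρ n v = v) :
    nrm A K v = ∑ i, A.ρ (r i) v := by
  unfold nrm
  rw [← Fintype.sum_equiv φ (fun i => A.ρ (φ i).out v) (fun q => A.ρ q.out v) (fun i => rfl)]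
  refine Finset.sum_congr rfl (fun i _ => ?_)
  apply rho_eq_of_mk_eq A K v hv
  rw [QuotientGroup.out_eq', hr]

/-- the image of the norm of the layer, inside `A` -/
noncomputable def nrmImg : AddSubgroup A.V :=
  (HerbrandCyclic54.normHom (repRhoM (A.quotientToInvariants K))).range.map (incl A K)

theorem mem_nrmImg (v : A.V) :
    v ∈ nrmImg A K ↔ ∃ w : A.V, (∀ n ∈ K, A.ρ n w = w) ∧ nrm A K w = v := by
  constructor
  · rintro ⟨_, ⟨b, rfl⟩, rfl⟩
    exact ⟨incl A K b, fun n hn => incl_inv A K b n hn, (incl_normHom A K b).symm⟩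
  · rintro ⟨w, hw, rfl⟩
    refine ⟨_, ⟨toInv A K w hw, rfl⟩, ?_⟩
    rw [incl_normHom, incl_toInv]

/-- the norm of an invariant vector is invariant under all of `P` -/
theorem nrm_mem_invAll (w : A.V) (hw : ∀ n ∈ K, A.ρ n w = w) : nrm A K w ∈ invAll A := by
  intro x
  have h1 := incl_normHom A K (toInv A K w hw)
  rw [incl_toInv] at h1
  rw [← h1, ← incl_rho, ← repRhoM_apply, rho_normHom]

theorem nrmImg_le_invAll : nrmImg A K ≤ invAll A := by
  intro v hv
  obtain ⟨w, hw, rfl⟩ := (mem_nrmImg A K v).1 hv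
  exact nrm_mem_invAll A K w hw

omit [K.Normal] in
/-- `N_{P/K} c = |P ⧸ K| • c` for an invariant `c` -/
theorem nrm_of_mem_invAll (c : A.V) (hc : c ∈ invAll A) : nrm A K c = Nat.card (P ⧸ K) • c := by
  unfold nrm
  rw [Finset.sum_congr rfl (fun q _ => hc q.out), Finset.sum_const, Finset.card_univ,
    Nat.card_eq_fintype_card]

/-- **the ambient description of `H0`**: `|H0| = [A^P : N(A^K)]`. -/
theorem card_H0_eq (g : P ⧸ K) (hg : ∀ x, x ∈ Subgroup.zpowers g) :
    Nat.card (cyclicPair (repRhoM (A.quotientToInvariants K)) g).H0 =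
      (nrmImg A K).relIndex (invAll A) := by
  have h1 : Nat.card (cyclicPair (repRhoM (A.quotientToInvariants K)) g).H0 =
      (cyclicPair (repRhoM (A.quotientToInvariants K)) g).g.range.relIndex
        (cyclicPair (repRhoM (A.quotientToInvariants K)) g).f.ker := rfl
  rw [h1, ← AddSubgroup.relIndex_map_map_of_injective _ _ (incl_injective A K)]
  congr 1
  ext v
  rw [cyclicPair_ker_f _ hg]
  constructor
  · rintro ⟨b, hb, rfl⟩ x
    have := hb (x : P ⧸ K)
    rw [repRhoM_apply] at this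
    rw [← incl_rho, this]
  · intro hv
    refine ⟨toInv A K v (fun n _ => hv n), ?_, rfl⟩
    intro τ
    obtain ⟨x, rfl⟩ := QuotientGroup.mk_surjective τ
    rw [repRhoM_apply]
    apply incl_injective A K
    rw [incl_rho, incl_toInv]
    exact hv x

end Ambient

/-! ### the reduction -/

section Reduction

variable (N M : Subgroup P) [N.Normal] [M.Normal]

/-- the map `M ⧸ (N ∩ M) → P ⧸ N` induced by the inclusion -/
def quotMap : M ⧸ N.subgroupOf M →* P ⧸ N :=
  QuotientGroup.map (N.subgroupOf M) N M.subtype (le_refl _)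

omit [M.Normal] in
theorem quotMap_mk (m : M) : quotMap N M (m : M ⧸ N.subgroupOf M) = ((m : P) : P ⧸ N) := rfl

omit [M.Normal] in
theorem quotMap_injective : Function.Injective (quotMap N M) := by
  rw [injective_iff_map_eq_one]
  intro q hq
  obtain ⟨m, rfl⟩ := QuotientGroup.mk_surjective q
  rw [quotMap_mk, QuotientGroup.eq_one_iff] at hq
  exact (QuotientGroup.eq_one_iff m).2 (Subgroup.mem_subgroupOf.2 hq)

omit [M.Normal] in
theorem quotMap_surjective (p : ℕ) [Fact p.Prime] (hN : Nat.card (P ⧸ N) = p)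
    (hM : (Nat.card (P ⧸ M)).Coprime p) : Function.Surjective (quotMap N M) := by
  rw [← MonoidHom.range_eq_top]
  have : Fact (Nat.card (P ⧸ N)).Prime := by rw [hN]; infer_instance
  rcases Subgroup.eq_bot_or_eq_top_of_prime_card (quotMap N M).range with h | h
  · exfalso
    have hle : M ≤ N := by
      intro m hm
      have hmem : quotMap N M ((⟨m, hm⟩ : M) : M ⧸ N.subgroupOf M) ∈ (quotMap N M).range :=
        ⟨_, rfl⟩
      rw [h, Subgroup.mem_bot, quotMap_mk, QuotientGroup.eq_one_iff] at hmem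
      exact hmem
    have hdvd : N.index ∣ M.index := Subgroup.index_dvd_of_le hle
    rw [Subgroup.index, Subgroup.index, hN] at hdvd
    have h1 : p = 1 := Nat.Coprime.eq_one_of_dvd hM.symm hdvd
    exact (Fact.out : p.Prime).one_lt.ne' h1
  · exact h

omit [M.Normal] in
theorem quotMap_bijective (p : ℕ) [Fact p.Prime] (hN : Nat.card (P ⧸ N) = p)
    (hM : (Nat.card (P ⧸ M)).Coprime p) : Function.Bijective (quotMap N M) :=
  ⟨quotMap_injective N M, quotMap_surjective N M p hN hM⟩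

omit [M.Normal] in
/-- the lower layer has the same order `p` -/
theorem card_quot_subgroupOf (p : ℕ) [Fact p.Prime] (hN : Nat.card (P ⧸ N) = p)
    (hM : (Nat.card (P ⧸ M)).Coprime p) : Nat.card (M ⧸ N.subgroupOf M) = p := by
  rw [← hN]
  exact Nat.card_congr (Equiv.ofBijective _ (quotMap_bijective N M p hN hM))

omit [N.Normal] [M.Normal] in
theorem invAll_le_res : invAll A ≤ invAll (Rep.res M.subtype A) := fun _ hv x => hv (x : P)

/-- commutation of the representatives of `N ⧸ (N ∩ M)` and `M ⧸ (N ∩ M)` on `A^{N ∩ M}` -/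
theorem rho_comm (v : A.V) (hv : ∀ x : P, x ∈ N → x ∈ M → A.ρ x v = v) {s m : P} (hs : s ∈ N)
    (hm : m ∈ M) : A.ρ s (A.ρ m v) = A.ρ m (A.ρ s v) := by
  have hcN : s⁻¹ * m⁻¹ * s * m ∈ N := by
    have h1 : m⁻¹ * s * m ∈ N := Subgroup.Normal.conj_mem' inferInstance s hs m
    have h2 : s⁻¹ * (m⁻¹ * s * m) ∈ N := N.mul_mem (N.inv_mem hs) h1
    have e : s⁻¹ * m⁻¹ * s * m = s⁻¹ * (m⁻¹ * s * m) := by group
    rw [e]; exact h2
  have hcM : s⁻¹ * m⁻¹ * s * m ∈ M := by
    have h1 : s⁻¹ * m⁻¹ * s ∈ M := Subgroup.Normal.conj_mem' inferInstance m⁻¹ (M.inv_mem hm) s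
    exact M.mul_mem h1 hm
  have e : s * m = m * s * (s⁻¹ * m⁻¹ * s * m) := by group
  rw [← Module.End.mul_apply, ← map_mul, e, map_mul, Module.End.mul_apply, hv _ hcN hcM,
    map_mul, Module.End.mul_apply]

omit [N.Normal] [M.Normal] in
theorem res_rho_apply (K : Subgroup P) (x : K) (v : A.V) :
    (Rep.res K.subtype A).ρ x v = A.ρ (x : P) v := rfl

variable [Fintype (P ⧸ N)] [Fintype (M ⧸ N.subgroupOf M)]

omit [M.Normal] in
theorem nrm_eq_nrm (hbij : Function.Bijective (quotMap N M)) (v : A.V)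
    (hv : ∀ n ∈ N, A.ρ n v = v) :
    nrm A N v = nrm (Rep.res M.subtype A) (N.subgroupOf M) v := by
  rw [nrm_eq_sum A N (Equiv.ofBijective _ hbij) (fun i => ((i.out : M) : P)) ?_ v hv]
  · rfl
  · intro i
    rw [Equiv.ofBijective_apply, ← quotMap_mk, QuotientGroup.out_eq']

omit [Fintype (P ⧸ N)] in
/-- the norms of the two lower layers commute on `A^{N ∩ M}` -/
theorem nrm_nrm_comm [Fintype (N ⧸ M.subgroupOf N)] (v : A.V)
    (hv : ∀ x : P, x ∈ N → x ∈ M → A.ρ x v = v) :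
    nrm (Rep.res N.subtype A) (M.subgroupOf N) (nrm (Rep.res M.subtype A) (N.subgroupOf M) v) =
      nrm (Rep.res M.subtype A) (N.subgroupOf M)
        (nrm (Rep.res N.subtype A) (M.subgroupOf N) v) := by
  unfold nrm
  simp_rw [map_sum]
  rw [Finset.sum_comm]
  refine Finset.sum_congr rfl (fun m _ => Finset.sum_congr rfl (fun s _ => ?_))
  rw [res_rho_apply, res_rho_apply, res_rho_apply, res_rho_apply]
  exact rho_comm A N M v hv (s.out : N).2 (m.out : M).2

theorem smul_mem_nrmImg [Fintype (N ⧸ M.subgroupOf N)]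
    (hbij : Function.Bijective (quotMap N M)) (c' : A.V)
    (hinv : ∀ x : P, x ∈ N → x ∈ M → A.ρ x c' = c')
    (hc : nrm (Rep.res M.subtype A) (N.subgroupOf M) c' ∈ invAll A) :
    Nat.card (N ⧸ M.subgroupOf N) • nrm (Rep.res M.subtype A) (N.subgroupOf M) c' ∈
      nrmImg A N := by
  have hc'2 : ∀ n ∈ M.subgroupOf N, (Rep.res N.subtype A).ρ n c' = c' := fun n hn =>
    hinv (n : P) n.2 (Subgroup.mem_subgroupOf.1 hn)
  have hb : ∀ n ∈ N, A.ρ n (nrm (Rep.res N.subtype A) (M.subgroupOf N) c') =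
      nrm (Rep.res N.subtype A) (M.subgroupOf N) c' := fun n hn =>
    nrm_mem_invAll (Rep.res N.subtype A) (M.subgroupOf N) c' hc'2 ⟨n, hn⟩
  have e1 : Nat.card (N ⧸ M.subgroupOf N) • nrm (Rep.res M.subtype A) (N.subgroupOf M) c' =
      nrm (Rep.res N.subtype A) (M.subgroupOf N)
        (nrm (Rep.res M.subtype A) (N.subgroupOf M) c') :=
    (nrm_of_mem_invAll (Rep.res N.subtype A) (M.subgroupOf N) _ (fun x => hc (x : P))).symm
  rw [e1, nrm_nrm_comm A N M c' hinv, ← nrm_eq_nrm A N M hbij _ hb]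
  exact (mem_nrmImg A N _).2 ⟨_, hb, rfl⟩

theorem mem_nrmImg_of_mem (p : ℕ) [Fact p.Prime] (hN : Nat.card (P ⧸ N) = p)
    (hM : (Nat.card (P ⧸ M)).Coprime p) (c : A.V) (hc : c ∈ invAll A)
    (hc' : c ∈ nrmImg (Rep.res M.subtype A) (N.subgroupOf M)) : c ∈ nrmImg A N := by
  have hbij := quotMap_bijective N M p hN hM
  obtain ⟨c', hc'inv, hcc'⟩ := (mem_nrmImg (Rep.res M.subtype A) (N.subgroupOf M) c).1 hc'
  -- `c'` is invariant under `N ∩ M`
  have hinv : ∀ x : P, x ∈ N → x ∈ M → A.ρ x c' = c' := fun x hxN hxM =>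
    hc'inv ⟨x, hxM⟩ (Subgroup.mem_subgroupOf.2 hxN)
  -- (1) `p • c` is a norm
  have h1 : p • c ∈ nrmImg A N := by
    rw [← hN, ← nrm_of_mem_invAll A N c hc]
    exact (mem_nrmImg A N _).2 ⟨c, fun n _ => hc n, rfl⟩
  -- (2) `d' • c` is a norm, `d' = [N : N ∩ M]`
  have hfinM : Finite (P ⧸ M) := Nat.finite_of_card_ne_zero (fun h0 => by
    rw [h0, Nat.coprime_zero_left] at hM
    exact (Fact.out : p.Prime).one_lt.ne' hM)
  have hfin2 : Finite (N ⧸ M.subgroupOf N) := Finite.of_injective _ (quotMap_injective M N)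
  let _ : Fintype (N ⧸ M.subgroupOf N) := Fintype.ofFinite _
  have hc2 : nrm (Rep.res M.subtype A) (N.subgroupOf M) c' ∈ invAll A := by rw [hcc']; exact hc
  have h2 : Nat.card (N ⧸ M.subgroupOf N) • c ∈ nrmImg A N := by
    have := smul_mem_nrmImg A N M hbij c' hinv hc2
    rwa [hcc'] at this
  -- (3) Bezout
  have hdvd : Nat.card (N ⧸ M.subgroupOf N) ∣ Nat.card (P ⧸ M) :=
    Subgroup.card_dvd_of_injective _ (quotMap_injective M N)
  have hcop : (Nat.card (N ⧸ M.subgroupOf N)).Coprime p := Nat.Coprime.coprime_dvd_left hdvd hM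
  obtain ⟨u, v, huv⟩ := Nat.Coprime.isCoprime hcop
  have hsum : c = u • (Nat.card (N ⧸ M.subgroupOf N) • c) + v • (p • c) := by
    rw [← natCast_zsmul c (Nat.card (N ⧸ M.subgroupOf N)), ← natCast_zsmul c p, smul_smul,
      smul_smul, ← add_smul, huv, one_smul]
  rw [hsum]
  exact add_mem (zsmul_mem h2 u) (zsmul_mem h1 v)

theorem nrmImg_eq_inf (p : ℕ) [Fact p.Prime] (hN : Nat.card (P ⧸ N) = p)
    (hM : (Nat.card (P ⧸ M)).Coprime p) :
    nrmImg A N = invAll A ⊓ nrmImg (Rep.res M.subtype A) (N.subgroupOf M) := by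
  apply le_antisymm
  · intro v hv
    refine ⟨nrmImg_le_invAll A N hv, ?_⟩
    obtain ⟨w, hw, rfl⟩ := (mem_nrmImg A N v).1 hv
    rw [nrm_eq_nrm A N M (quotMap_bijective N M p hN hM) w hw]
    exact (mem_nrmImg (Rep.res M.subtype A) (N.subgroupOf M) _).2
      ⟨w, fun n hn => hw (n : P) (Subgroup.mem_subgroupOf.1 hn), rfl⟩
  · rintro v ⟨hv1, hv2⟩
    exact mem_nrmImg_of_mem A N M p hN hM v hv1 hv2

/-- **Reduction of the second inequality to the layer over `M`** (`|P ⧸ M|` prime to `p`):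
`|Ĥ⁰(P ⧸ N, A^N)|` divides `|Ĥ⁰(M ⧸ (N ∩ M), A^{N ∩ M})|`. -/
theorem card_H0_dvd_card_H0 (p : ℕ) [Fact p.Prime] (hN : Nat.card (P ⧸ N) = p)
    (hM : (Nat.card (P ⧸ M)).Coprime p) (g : P ⧸ N) (hg : ∀ x, x ∈ Subgroup.zpowers g)
    (g₁ : M ⧸ N.subgroupOf M) (hg₁ : ∀ x, x ∈ Subgroup.zpowers g₁) :
    Nat.card (cyclicPair (repRhoM (A.quotientToInvariants N)) g).H0 ∣
      Nat.card (cyclicPair
        (repRhoM ((Rep.res M.subtype A).quotientToInvariants (N.subgroupOf M))) g₁).H0 := by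
  rw [card_H0_eq A N g hg, card_H0_eq (Rep.res M.subtype A) (N.subgroupOf M) g₁ hg₁,
    nrmImg_eq_inf A N M p hN hM, AddSubgroup.inf_relIndex_left]
  exact relIndex_dvd_of_le_right _ (invAll_le_res A M)

end Reduction

end Fermat.Agent.S55.CLDescent35.Reduce
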