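/-
S55 / 33d-CL-DESCENT (helper35), part 3: leaf 33 ASSEMBLED from the two inequalities in relative
(layer) form.

`G` a group, `A : Rep k G` (in the application `G = Gal(L/ℚ)`, `A = C_S(L)`), `p` a prime,
`Z ⊴ G` with `|G ⧸ Z|` prime to `p` (in the application: the subgroup fixing `ζ_p`).
* `FI A p` : every layer `(H ⧸ N, A^N)`, `N ⊴ H ≤ G`, `|H ⧸ N| = p`, has Herbrand quotient `p`
  (output of leaf 31);
* `SI A p Z` : every such layer with `H ≤ Z` has `|Ĥ⁰| ∣ p` (output of leaf 32).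
Then `H¹(H ⧸ N, A^N) = 0` and `|H²(H ⧸ N, A^N)| ∣ |H ⧸ N|` for every layer which is a `p`-group,
the `p`-primary statements hold for all finite layers, and the same for every subquotient `(Q, B)`
of `(G, A)` in the sense of helper99's `SubQuot99`.
-/
import Mathlib
import Fermat.Agent.S55.CLDescent35.Pairs
import Fermat.Agent.S55.CLDescent35.Reduce
import Fermat.Agent.S55.SubQuot99.Devissage

set_option autoImplicit false

namespace Fermat.Agent.S55.CLDescent35.Main

open Fermat.Agent.S55.Herbrand54 Fermat.Agent.S55.HerbrandCyclic54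
open Fermat.Agent.S55.HerbrandHcyc54 Fermat.Agent.S55.SubQuot99 Fermat.Agent.S55.InfRes9
open Fermat.Agent.S55.CLDescent35.Pairs Fermat.Agent.S55.CLDescent35
open CategoryTheory

universe u

variable {k G : Type u} [CommRing k] [Group G] {A : Rep.{u, u, u} k G}

/-- a group of prime order has a generator -/
theorem exists_generator {Q : Type*} [Group Q] {p : ℕ} [Fact p.Prime] (hQ : Nat.card Q = p) :
    ∃ g : Q, ∀ x, x ∈ Subgroup.zpowers g :=
  (isCyclic_of_prime_card hQ).exists_generator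

/-- a group of prime order is finite -/
theorem finite_of_card_eq {Q : Type*} {p : ℕ} [Fact p.Prime] (hQ : Nat.card Q = p) : Finite Q :=
  Nat.finite_of_card_ne_zero (hQ ▸ (Fact.out : p.Prime).ne_zero)

/-- the subquotient datum of the lower layer `(M ⧸ (N ∩ M), A^{N ∩ M})`, `M ≤ H` -/
noncomputable def lowerData (H : Subgroup G) (N M : Subgroup H) [N.Normal] :
    SubQuotData A (M ⧸ N.subgroupOf M)
      ((Rep.res M.subtype (Rep.res H.subtype A)).quotientToInvariants (N.subgroupOf M)) :=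
  (((SubQuotData.self A).res H).res M).quot (N.subgroupOf M)

theorem lowerData_H_le (H : Subgroup G) (N M : Subgroup H) [N.Normal] (Z : Subgroup G)
    (hM : M ≤ Z.subgroupOf H) : (lowerData (A := A) H N M).H ≤ Z := by
  rintro x ⟨y, hy, rfl⟩
  exact Subgroup.mem_subgroupOf.1 (hM hy)

/-- **the reduction to the layers inside `Z`** -/
theorem si_of_coprime {p : ℕ} [Fact p.Prime] {Z : Subgroup G} [Z.Normal]
    (hZ : (Nat.card (G ⧸ Z)).Coprime p) (h : SI A p Z) : SI A p ⊤ := by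
  intro H N _ _ _ hc g hg
  have hfinZ : Finite (G ⧸ Z) := Nat.finite_of_card_ne_zero (fun h0 => by
    rw [h0, Nat.coprime_zero_left] at hZ
    exact (Fact.out : p.Prime).one_lt.ne' hZ)
  -- `M = Z ∩ H`, of index prime to `p` in `H`
  have hdvd : Nat.card (H ⧸ Z.subgroupOf H) ∣ Nat.card (G ⧸ Z) :=
    Subgroup.card_dvd_of_injective _ (Reduce.quotMap_injective Z H)
  have hM : (Nat.card (H ⧸ Z.subgroupOf H)).Coprime p := Nat.Coprime.coprime_dvd_left hdvd hZ
  have hc₁ : Nat.card (↥(Z.subgroupOf H) ⧸ N.subgroupOf (Z.subgroupOf H)) = p :=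
    Reduce.card_quot_subgroupOf N (Z.subgroupOf H) p hc hM
  have hfin₁ := finite_of_card_eq hc₁
  let _ : Fintype (↥(Z.subgroupOf H) ⧸ N.subgroupOf (Z.subgroupOf H)) := Fintype.ofFinite _
  obtain ⟨g₁, hg₁⟩ := exists_generator hc₁
  refine dvd_trans (Reduce.card_H0_dvd_card_H0 (Rep.res H.subtype A) N (Z.subgroupOf H) p hc hM
    g hg g₁ hg₁) ?_
  exact h.subQuot (lowerData H N (Z.subgroupOf H)) (lowerData_H_le H N _ Z le_rfl) hc₁ g₁ hg₁

/-- **the prime layers**: `hcyc` of the dévissage from the two inequalities -/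
theorem hcyc_of_FI_SI {p : ℕ} [Fact p.Prime] (hFI : FI A p) (hSI : SI A p ⊤)
    (H : Subgroup G) (N : Subgroup H) [N.Normal] (hc : Nat.card (H ⧸ N) = p) :
    Good p (H ⧸ N) (layer A H N) := by
  have hfin := finite_of_card_eq hc
  let _ : Fintype (H ⧸ N) := Fintype.ofFinite _
  obtain ⟨g, hg⟩ := exists_generator hc
  obtain ⟨hdef, hq⟩ := hFI H N hc g hg
  have h0 := hSI H N le_top hc g hg
  obtain ⟨h1, _, h3⟩ := hcyc_dvd (layer A H N) g hg p (Fact.out : p.Prime).pos hdef hq h0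
  exact ⟨h1, h3⟩

section Main

variable {p : ℕ} [Fact p.Prime] {Z : Subgroup G} [Z.Normal]
  (hZ : (Nat.card (G ⧸ Z)).Coprime p) (hFI : FI A p) (hSI : SI A p Z)

include hZ hFI hSI

/-- **Leaf 33, `p`-group layers**: `H¹(H ⧸ N, A^N) = 0` and `|H²(H ⧸ N, A^N)| ∣ |H ⧸ N|`. -/
theorem good_of_FI_SI (H : Subgroup G) (N : Subgroup H) [N.Normal] [Finite (H ⧸ N)]
    (hp : IsPGroup p (H ⧸ N)) : Good (Nat.card (H ⧸ N)) (H ⧸ N) (layer A H N) :=
  subquot_pGroup p (fun H' N' _ hc => hcyc_of_FI_SI hFI (si_of_coprime hZ hSI) H' N' hc) H N hp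

/-- **Leaf 33, `p`-parts of arbitrary finite layers.** -/
theorem pPart_of_FI_SI (H : Subgroup G) (N : Subgroup H) [N.Normal] [Finite (H ⧸ N)] :
    (∀ x : groupCohomology (layer A H N) 1, (∃ n : ℕ, p ^ n • x = 0) → x = 0) ∧
      Nat.card (pPrimary p (groupCohomology (layer A H N) 2)) ∣
        p ^ (Nat.card (H ⧸ N)).factorization p :=
  subquot_pPart p (fun H' N' _ hc => hcyc_of_FI_SI hFI (si_of_coprime hZ hSI) H' N' hc) H N

/-- the same for an arbitrary subquotient `(Q, B)` of `(G, A)`, `Q` a `p`-group -/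
theorem subQuot_good_of_FI_SI {Q : Type u} [Group Q] [Finite Q] {B : Rep.{u, u, u} k Q}
    (h : IsSubQuot A Q B) (hp : IsPGroup p Q) : Good (Nat.card Q) Q B :=
  h.good_of_isPGroup p (fun H' N' _ hc => hcyc_of_FI_SI hFI (si_of_coprime hZ hSI) H' N' hc) hp

/-- the same for the `p`-part of an arbitrary finite subquotient `(Q, B)` of `(G, A)` -/
theorem subQuot_pPart_of_FI_SI {Q : Type u} [Group Q] [Finite Q] {B : Rep.{u, u, u} k Q}
    (h : IsSubQuot A Q B) :
    (∀ x : groupCohomology B 1, (∃ n : ℕ, p ^ n • x = 0) → x = 0) ∧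
      Nat.card (pPrimary p (groupCohomology B 2)) ∣ p ^ (Nat.card Q).factorization p :=
  h.pPart p (fun H' N' _ hc => hcyc_of_FI_SI hFI (si_of_coprime hZ hSI) H' N' hc)

end Main

end Fermat.Agent.S55.CLDescent35.Main
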