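/-
S55 / 33d-CL-DESCENT (helper35), part 4: the literal output shapes (31-OUT)/(32-OUT) of helper77's
`Adapt77.HcycGlue` plugged into `CLDescent35.Main`: the first inequality for ALL layers and the
second inequality ONLY for the layers below `Z` (`Z ⊴ G` of index prime to `p`: the subgroup fixing
`ζ_p`) give leaf 33 for ALL layers of `(G, A)` (not only those below `Z`).
-/
import Mathlib
import Fermat.Agent.S55.CLDescent35.Main
import Fermat.Agent.S55.Adapt77.HcycGlue

set_option autoImplicit false

namespace Fermat.Agent.S55.CLDescent35.Glue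

open Fermat.Agent.S55.SubQuot99 Fermat.Agent.S55.InfRes9 Fermat.Agent.S55.Adapt77.HcycGlue
open Fermat.Agent.S55.CLDescent35 CategoryTheory

universe u

variable {k G : Type u} [CommRing k] [Group G] {A : Rep.{u, u, u} k G} {p : ℕ}

theorem fi_of_out (h : FirstIneqOut A ⊤ p) : Pairs.FI A p :=
  fun H N _ _ hc g hg => h H le_top N hc g hg

theorem out_of_fi (h : Pairs.FI A p) : FirstIneqOut A ⊤ p :=
  fun H _ N _ hc _ g hg => h H N hc g hg

theorem si_of_out {Z : Subgroup G} (h : SecondIneqOut A Z p) : Pairs.SI A p Z :=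
  fun H N _ _ hH hc g hg => h H hH N hc g hg

theorem out_of_si {Z : Subgroup G} (h : Pairs.SI A p Z) : SecondIneqOut A Z p :=
  fun H hH N _ hc _ g hg => h H N hH hc g hg

variable [Fact p.Prime] {Z : Subgroup G} [Z.Normal]

/-- **(32-OUT) below `Z` implies (32-OUT) everywhere** (`|G ⧸ Z|` prime to `p`). -/
theorem secondIneqOut_top (hZ : (Nat.card (G ⧸ Z)).Coprime p) (h32 : SecondIneqOut A Z p) :
    SecondIneqOut A ⊤ p :=
  out_of_si (Main.si_of_coprime hZ (si_of_out h32))

variable (hZ : (Nat.card (G ⧸ Z)).Coprime p) (h31 : FirstIneqOut A ⊤ p)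
  (h32 : SecondIneqOut A Z p)

include hZ h31 h32

/-- **(33-OUT) for ALL `p`-group layers.** -/
theorem pGroup_of_out (H : Subgroup G) (N : Subgroup H) [N.Normal] [Finite (H ⧸ N)]
    (hp : IsPGroup p (H ⧸ N)) :
    Limits.IsZero (groupCohomology ((Rep.res H.subtype A).quotientToInvariants N) 1) ∧
      Nat.card (groupCohomology ((Rep.res H.subtype A).quotientToInvariants N) 2) ∣
        Nat.card (H ⧸ N) :=
  Main.good_of_FI_SI hZ (fi_of_out h31) (si_of_out h32) H N hp

/-- **(33-OUT), `p`-parts of ALL finite layers.** -/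
theorem pPart_of_out (H : Subgroup G) (N : Subgroup H) [N.Normal] [Finite (H ⧸ N)] :
    (∀ x : groupCohomology ((Rep.res H.subtype A).quotientToInvariants N) 1,
        (∃ n : ℕ, p ^ n • x = 0) → x = 0) ∧
      Nat.card (pPrimary p (groupCohomology ((Rep.res H.subtype A).quotientToInvariants N) 2)) ∣
        p ^ (Nat.card (H ⧸ N)).factorization p :=
  Main.pPart_of_FI_SI hZ (fi_of_out h31) (si_of_out h32) H N

/-- **(33-OUT) for `(G, A)` itself**, `G` finite. -/
theorem self_pPart_of_out [Finite G] :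
    (∀ x : groupCohomology A 1, (∃ n : ℕ, p ^ n • x = 0) → x = 0) ∧
      Nat.card (pPrimary p (groupCohomology A 2)) ∣ p ^ (Nat.card G).factorization p :=
  Main.subQuot_pPart_of_FI_SI hZ (fi_of_out h31) (si_of_out h32) (isSubQuot_self A)

/-- **(33-OUT) for every subgroup `H ≤ G` acting on `A`**, `G` finite. -/
theorem res_pPart_of_out [Finite G] (H : Subgroup G) :
    (∀ x : groupCohomology (Rep.res H.subtype A) 1, (∃ n : ℕ, p ^ n • x = 0) → x = 0) ∧
      Nat.card (pPrimary p (groupCohomology (Rep.res H.subtype A) 2)) ∣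
        p ^ (Nat.card H).factorization p :=
  Main.subQuot_pPart_of_FI_SI hZ (fi_of_out h31) (si_of_out h32) ((isSubQuot_self A).res H)

end Fermat.Agent.S55.CLDescent35.Glue
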