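/-
S55 / 33d-CL-DESCENT (helper35), part 8: **(32-OUT) below `H₀ = π_L(ker cycloChar)` implies
(32-OUT) for ALL layers**, concretely for the finite Galois levels `L` of `ℚ`.

`H₀ := (cycloChar p).ker.map (resL L)` is a normal subgroup of `Gal(L/ℚ)` whose index divides
`p - 1` (NO hypothesis `ζ_p ∈ L` is needed), hence is prime to `p`.  By the norm-index reduction
(N2) of `CLDescent35.Reduce` (`Glue.secondIneqOut_top`), the second inequality for the layers
below `H₀` (base field `∋ ζ_p`; this is what 32c-B proves) gives the second inequality for ALL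
layers `N ⊴ H ≤ Gal(L/ℚ)`, `|H/N| = p`.  Consequently every `…_of_below` adapter of
`Adapt77` can be used with `H₀ := ⊤`, i.e. for EVERY subquotient (base field `ℚ` included):
`H¹(p) = 0` and `|H²(p)| ∣ p^{v_p |Q|}`.
-/
import Mathlib
import Fermat.Agent.S55.CLDescent35.Glue
import Fermat.Agent.S55.Adapt77.TowerInputsP
import Fermat.Agent.S55.Idele73.Basic
import Fermat.Prelude.Def_ExtCitation_KummerBridge

set_option autoImplicit false

namespace Fermat.Agent.S55.CLDescent35.OutTop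

open ExtCitation
open CategoryTheory groupCohomology
open Fermat.Agent.S55.Idele73.Basic Fermat.Agent.S55.Adapt77.HcycGlue
open Fermat.Agent.S55.SubQuot99 Fermat.Agent.S55.InfRes9 Fermat.Agent.S55.Adapt77.SubQuotBelow
open Fermat.Agent.S55.Adapt77.TowerInputsP

section Generic

variable {Γ G T : Type*} [Group Γ] [Group G] [Group T]

/-- the image of a normal subgroup under a surjective homomorphism is normal -/
theorem normal_map_of_surjective (π : Γ →* G) (hπ : Function.Surjective π) (V : Subgroup Γ)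
    [V.Normal] : (V.map π).Normal :=
  Subgroup.Normal.map inferInstance π hπ

/-- `|G ⧸ π(ker χ)|` divides `|T|` for `π : Γ ↠ G` and a character `χ : Γ → T`, `T` finite. -/
theorem card_quot_map_ker_dvd [Finite T] (π : Γ →* G) (hπ : Function.Surjective π) (χ : Γ →* T)
    [(χ.ker.map π).Normal] : Nat.card (G ⧸ χ.ker.map π) ∣ Nat.card T := by
  -- `Γ ⧸ ker χ ↠ G ⧸ π(ker χ)`
  let f : Γ ⧸ χ.ker →* G ⧸ χ.ker.map π :=
    QuotientGroup.map χ.ker (χ.ker.map π) π (Subgroup.le_comap_map π χ.ker)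
  have hf : Function.Surjective f := by
    intro y
    obtain ⟨g, rfl⟩ := QuotientGroup.mk_surjective y
    obtain ⟨γ, rfl⟩ := hπ g
    exact ⟨QuotientGroup.mk γ, rfl⟩
  have hfin : Finite (Γ ⧸ χ.ker) :=
    Finite.of_injective _ (QuotientGroup.kerLift_injective χ)
  have h1 : Nat.card (G ⧸ χ.ker.map π) ∣ Nat.card (Γ ⧸ χ.ker) :=
    Subgroup.card_dvd_of_surjective f hf
  have h2 : Nat.card (Γ ⧸ χ.ker) ∣ Nat.card T :=
    Subgroup.card_dvd_of_injective _ (QuotientGroup.kerLift_injective χ)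
  exact h1.trans h2

end Generic

variable (p : ℕ) [Fact p.Prime] (L : IntermediateField ℚ Qbar) [Normal ℚ L]

/-- `H₀ = π_L(ker cycloChar)`, the subgroup of `Gal(L/ℚ)` fixing the `p`-th roots of unity -/
noncomputable abbrev H0 : Subgroup (GalL L) := (cycloChar p).ker.map (resL L)

instance normal_H0 : (H0 p L).Normal :=
  normal_map_of_surjective (resL L) (resL_surjective L) (cycloChar p).ker

/-- `[Gal(L/ℚ) : H₀]` divides `p - 1` -/
theorem card_quot_H0_dvd : Nat.card (GalL L ⧸ H0 p L) ∣ p - 1 := by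
  have h := card_quot_map_ker_dvd (resL L) (resL_surjective L) (cycloChar p)
  have hc : Nat.card (ZMod p)ˣ = p - 1 := by
    rw [Nat.card_eq_fintype_card, ZMod.card_units_eq_totient,
      Nat.totient_prime (Fact.out : p.Prime)]
  rwa [hc] at h

/-- `[Gal(L/ℚ) : H₀]` is prime to `p` -/
theorem coprime_card_quot_H0 : (Nat.card (GalL L ⧸ H0 p L)).Coprime p := by
  have hp : p.Prime := Fact.out
  refine Nat.Coprime.coprime_dvd_left (card_quot_H0_dvd p L) ?_
  rw [Nat.coprime_comm, hp.coprime_iff_not_dvd]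
  exact Nat.not_dvd_of_pos_of_lt (Nat.sub_pos_of_lt hp.one_lt) (Nat.sub_lt hp.pos one_pos)

variable {p L}
variable {A : Rep.{0, 0, 0} ℤ (GalL L)}

/-- **(32-OUT) below `H₀` ⟹ (32-OUT) for all layers.** -/
theorem secondIneqOut_top (h32 : SecondIneqOut A (H0 p L) p) : SecondIneqOut A ⊤ p :=
  Glue.secondIneqOut_top (coprime_card_quot_H0 p L) h32

/-- the same from (32-OUT) below any `H₁ ≥ H₀` (the literal output shape of 32c-B) -/
theorem secondIneqOut_top_of_le {H₁ : Subgroup (GalL L)} (hH : H0 p L ≤ H₁)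
    (h32 : SecondIneqOut A H₁ p) : SecondIneqOut A ⊤ p :=
  secondIneqOut_top (fun H hH' N _ hc _ g hg => h32 H (hH'.trans hH) N hc g hg)

/-- every subquotient is a subquotient below `⊤` -/
theorem isSubQuotBelow_top {k G : Type} [CommRing k] [Group G] {A : Rep.{0, 0, 0} k G}
    {Q : Type} [Group Q] {B : Rep.{0, 0, 0} k Q} (h : IsSubQuot A Q B) :
    IsSubQuotBelow A ⊤ Q B :=
  h.elim fun D => ⟨D, le_top⟩

section AllLayers

/-! ### The inputs of 35-GEN for EVERY subquotient of `(Gal(L/ℚ), A)` (base field `ℚ` included)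

`h31` = 31-OUT (all layers), `h32` = 32c-B-OUT (layers below `H₁ ⊇ H₀ = π_L(ker cycloChar)`). -/

variable (h31 : FirstIneqOut A ⊤ p) {H₁ : Subgroup (GalL L)} (hH : H0 p L ≤ H₁)
  (h32 : SecondIneqOut A H₁ p)
  {Γ : Type} [Group Γ] {C : Rep.{0, 0, 0} ℤ Γ} (hC : IsSubQuot A Γ C)
include h31 hH h32 hC

/-- **`h1N`**: `H¹(N, C) = 0` for every finite `p`-subgroup `N` of a subquotient. -/
theorem isZero_H1_res_of_out (N : Subgroup Γ) [Finite N] (hN : IsPGroup p N) :
    Limits.IsZero (groupCohomology (Rep.res N.subtype C) 1) :=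
  isZero_H1_res_of_below h31 (secondIneqOut_top_of_le hH h32) (isSubQuotBelow_top hC) N hN

/-- `H¹(Z, C)(p) = 0` and `|H²(Z, C)(p)| ∣ p^{v_p |Z|}` for every finite subgroup `Z`. -/
theorem pPart_res_of_out (Z : Subgroup Γ) [Finite Z] :
    (∀ x : groupCohomology (Rep.res Z.subtype C) 1, (∃ n : ℕ, p ^ n • x = 0) → x = 0) ∧
      Nat.card (pPrimary p (groupCohomology (Rep.res Z.subtype C) 2)) ∣
        p ^ (Nat.card Z).factorization p :=
  pPart_res_of_below h31 (secondIneqOut_top_of_le hH h32) (isSubQuotBelow_top hC) Z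

/-- **`hH1Z`** for every finite subgroup `Z` of a subquotient (no `below`). -/
theorem exists_coprime_nsmul_cob_of_out (Z : Subgroup Γ) [Finite Z] :
    ∃ m' : ℕ, Nat.Coprime m' p ∧
      ∀ f : Z → C, (∀ z w : Z, f (z * w) = C.ρ (z : Γ) (f w) + f z) →
        ∃ y : C, ∀ z : Z, m' • f z = C.ρ (z : Γ) y - y :=
  exists_coprime_nsmul_cob_of_below h31 (secondIneqOut_top_of_le hH h32) (isSubQuotBelow_top hC) Z

/-- **`hb`** at ANY base field: `|H²(Γ ⧸ N, C^N)(p)| ∣ p ^ v_p([Γ : N])`. -/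
theorem card_pPrimary_H2_quot_of_out (N : Subgroup Γ) [N.Normal] [Finite (Γ ⧸ N)] :
    Nat.card (pPrimary p (H2 (C.quotientToInvariants N))) ∣
      p ^ (Nat.card (Γ ⧸ N)).factorization p :=
  card_pPrimary_H2_quot_of_below h31 (secondIneqOut_top_of_le hH h32) (isSubQuotBelow_top hC) N

/-- `H¹(Γ ⧸ N, C^N)(p) = 0` at ANY base field. -/
theorem pPrimary_H1_quot_of_out (N : Subgroup Γ) [N.Normal] [Finite (Γ ⧸ N)] :
    ∀ x : groupCohomology (C.quotientToInvariants N) 1, (∃ n : ℕ, p ^ n • x = 0) → x = 0 :=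
  pPrimary_H1_quot_of_below h31 (secondIneqOut_top_of_le hH h32) (isSubQuotBelow_top hC) N

end AllLayers

end Fermat.Agent.S55.CLDescent35.OutTop
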