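/-
S55 / 33d-CL-DESCENT (helper35), part 5: Hilbert 90 for the levels of the coinduced idele model
and Galois descent of the `S`-idele class module along EVERY layer.

`L` a finite Galois level, `N'` ANY subgroup of `Gal(L/ℚ)`:
* `H¹(N', Lˣ) = 0` (`isZero_H1_Lx`), in Mathlib `groupCohomology` form and in the cocycle form
  `hH90` consumed by helper27's `FirstIneq27.Layer.layer_first_ineq`;
* `C_S(L)^{N'} = (J_S(L) × I^S(L))^{N'} / (L^{N'})ˣ`: every `N'`-invariant class of helper44's
  `CS h` is the class of an `N'`-invariant element of `JIS L S` (`exists_invariant_lift_CS`), and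
  `0 → (Lˣ)^N → (J_S × I^S)^N → C_S(L)^N → 0` is short exact in `Rep ℤ (H ⧸ N)` for every layer
  `N ⊴ H ≤ Gal(L/ℚ)` (`layer_shortExact`).
-/
import Mathlib
import Fermat.Agent.S55.Idele73.Components
import Fermat.Agent.S55.IdeleVal44.Class
import Fermat.Agent.S55.Descent99

set_option autoImplicit false

namespace Fermat.Agent.S55.CLDescent35.Hilbert90

open CategoryTheory Fermat.Agent.S55.Idele73.Basic Fermat.Agent.S55.IdeleVal44
open Fermat.Agent.S55.Descent99

variable (L : IntermediateField ℚ Qbar) [Normal ℚ L] [FiniteDimensional ℚ L]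

omit [Normal ℚ L] in
/-- **Hilbert 90** for every subgroup of `Gal(L/ℚ)`. -/
theorem isZero_H1_Lx (N' : Subgroup (GalL L)) :
    Limits.IsZero (groupCohomology (Rep.res N'.subtype (Lx L)) 1) :=
  Idele73.Components.isZero_H1_resUnits N'

omit [Normal ℚ L] in
/-- Hilbert 90, cocycle form, for a subgroup of `Gal(L/ℚ)`. -/
theorem exists_eq_sub_Lx (N' : Subgroup (GalL L)) (z : N' → (Lx L).V)
    (hz : ∀ n m : N', z (n * m) = (Lx L).ρ (n : GalL L) (z m) + z n) :
    ∃ y : (Lx L).V, ∀ n : N', (Lx L).ρ (n : GalL L) y - y = z n :=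
  exists_eq_sub_of_isZero_H1 (Lx L) N' (isZero_H1_Lx L N') z hz

omit [Normal ℚ L] in
/-- Hilbert 90 in the literal shape `hH90` of `FirstIneq27.Layer.layer_first_ineq`
(`X := Lx L`), for every layer `N ≤ H ≤ Gal(L/ℚ)`. -/
theorem hH90_Lx (H : Subgroup (GalL L)) (N : Subgroup H) (z : N → (Lx L).V)
    (hz : ∀ n m : N, z (n * m) = (Lx L).ρ ((n : H) : GalL L) (z m) + z n) :
    ∃ y : (Lx L).V, ∀ n : N, (Lx L).ρ ((n : H) : GalL L) y - y = z n := by
  let e : N ≃* N.map H.subtype := N.equivMapOfInjective H.subtype H.subtype_injective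
  have he : ∀ n' : N.map H.subtype, (((e.symm n' : N) : H) : GalL L) = (n' : GalL L) := by
    intro n'
    have := Subgroup.coe_equivMapOfInjective_apply N H.subtype H.subtype_injective (e.symm n')
    exact this.symm.trans (congrArg Subtype.val (e.apply_symm_apply n'))
  obtain ⟨y, hy⟩ := exists_eq_sub_Lx L (N.map H.subtype) (fun n' => z (e.symm n')) (by
    intro n m
    show z (e.symm (n * m)) = _
    rw [map_mul, hz, he])
  refine ⟨y, fun n => ?_⟩
  have h1 := hy (e n)
  have h2 : ((e n : N.map H.subtype) : GalL L) = ((n : H) : GalL L) :=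
    Subgroup.coe_equivMapOfInjective_apply N H.subtype H.subtype_injective n
  rw [h2] at h1
  simpa using h1

section CS

variable {L}
variable {S : Finset Nat.Primes} (h : UnrOutside L S) (hS : S.Nonempty)

omit [FiniteDimensional ℚ L] in
theorem toCS_eq_zero_iff_exists (j : JIS L S) :
    (toCS h).hom j = 0 ↔ ∃ x : Lx L, (deltaS h).hom x = j := by
  rw [toCS_eq_zero_iff]
  exact LinearMap.mem_range

include hS

/-- **`C_S(L)^{N'} = (J_S × I^S)^{N'} / (L^{N'})ˣ`**: invariant classes have invariant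
representatives (`N'` ANY subgroup of `Gal(L/ℚ)`). -/
theorem exists_invariant_lift_CS (N' : Subgroup (GalL L)) (c : CS h)
    (hc : ∀ n ∈ N', (CS h).ρ n c = c) :
    ∃ y : JIS L S, (∀ n ∈ N', (JIS L S).ρ n y = y) ∧ (toCS h).hom y = c :=
  exists_invariant_lift (deltaS h) (toCS h) (deltaS_injective h hS) (toCS_surjective h)
    (toCS_eq_zero_iff_exists h) N' (isZero_H1_Lx L N') c hc

/-- the restriction to `H` of `0 → Lˣ → J_S × I^S → C_S → 0` -/
noncomputable def sesRes (H : Subgroup (GalL L)) : ShortComplex (Rep.{0, 0, 0} ℤ H) :=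
  (sesJIS h).map (Rep.resFunctor H.subtype)

omit [FiniteDimensional ℚ L] in
theorem sesRes_shortExact (H : Subgroup (GalL L)) : (sesRes h H).ShortExact := by
  have hS' := sesJIS_shortExact h hS
  have hf : Function.Injective (sesJIS h).f.hom := (Rep.mono_iff_injective _).1 hS'.mono_f
  have hg : Function.Surjective (sesJIS h).g.hom := (Rep.epi_iff_surjective _).1 hS'.epi_g
  exact shortExact_of44 (S := sesRes h H) hf hg
    (fun x hx => (toCS_eq_zero_iff_exists h x).1 hx)

/-- **`0 → (Lˣ)^N → (J_S × I^S)^N → C_S(L)^N → 0` is short exact in `Rep ℤ (H ⧸ N)`** for every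
layer `N ⊴ H ≤ Gal(L/ℚ)`. -/
theorem layer_shortExact (H : Subgroup (GalL L)) (N : Subgroup H) [N.Normal] :
    ((sesRes h H).map (Rep.quotientToInvariantsFunctor ℤ N)).ShortExact := by
  refine invariants_shortExact N (sesRes h H) (sesRes_shortExact h hS H) ?_
  -- `H¹(N, Res_H Lˣ) = 0`
  rw [ModuleCat.isZero_iff_subsingleton]
  refine ⟨fun a b => ?_⟩
  have key : ∀ x : groupCohomology (Rep.res N.subtype (Rep.res H.subtype (Lx L))) 1, x = 0 := by
    intro x
    induction x using groupCohomology.H1_induction_on with | @h z =>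
    rw [groupCohomology.H1π_eq_zero_iff]
    have hz := (groupCohomology.mem_cocycles₁_iff (z : N → (Lx L).V)).1 z.2
    obtain ⟨y, hy⟩ := hH90_Lx L H N z (fun n m => hz n m)
    refine ⟨y, ?_⟩
    funext n
    simp only [groupCohomology.d₀₁_hom_apply]
    exact hy n
  exact (key a).trans (key b).symm

end CS

end Fermat.Agent.S55.CLDescent35.Hilbert90
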