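/-
S55 / 33d-CL-DESCENT (helper35), part 9: **the cohomological fields of helper91's
`GlobalInv91.FinLayerHyp` for the D2 idele sequence**, in literal shape.

`L` a finite Galois level, `h : UnrOutside L S`, `H ≤ Gal(L/ℚ)` (`= Gal(L/K)`), and
`Y := Hilbert90.sesRes h H : ShortComplex (Rep ℤ ↥H)`, i.e. `Res_H (Lˣ → J_S × I^S → C_S(L))`.

* unconditional: `Y` is short exact; `H¹(Z, Lˣ) = 0`, `H¹(Z, J_S × I^S) = 0` for EVERY subgroup
  `Z ≤ H` (double-restriction shape `Rep.res Z.subtype Y.X_i`);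
* from (31-OUT) + (32c-B-OUT) (no `below` restriction, by `OutTop`): `H¹(Z, C_S)(p) = 0` for every
  `Z ≤ H`, `H¹(N, C_S) = 0` for `p`-subgroups, `|H²(H/ker χ, C_S^{ker χ})(p)| ∣ p^m`, and the
  bound `hb` for every normal `N ⊴ H`;
* `finLayerHyp_of`: the structure `FinLayerHyp Y p m χ invJ` from the three remaining arithmetic
  fields `exists_s`, `recT` (34), `fullDeg` (full local degree).
-/
import Mathlib
import Fermat.Agent.S55.CLDescent35.Hilbert90
import Fermat.Agent.S55.CLDescent35.OutTop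
import Fermat.Agent.S55.Idele73.InfSum
import Fermat.Agent.S55.Idele73.H90
import Fermat.Agent.S55.GlobalInv91.InstFin

set_option autoImplicit false
set_option linter.unusedSectionVars false

namespace Fermat.Agent.S55.CLDescent35.FinFields

open CategoryTheory groupCohomology
open Fermat.Agent.S55.Idele73.Basic Fermat.Agent.S55.IdeleVal44
open Fermat.Agent.S55.CLDescent35.Hilbert90
open Fermat.Agent.S55.Adapt77.HcycGlue Fermat.Agent.S55.SubQuot99
open Fermat.Agent.S55.GlobalInv91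

section Generic

variable {k G : Type} [CommRing k] [Group G] (A : Rep.{0, 0, 0} k G)

/-- `H¹(Z, Res_H A) = 0` (double restriction) from `H¹` of the image of `Z` in `G`. -/
theorem isZero_H1_res_res (H : Subgroup G) (Z : Subgroup H)
    (h1 : Limits.IsZero (groupCohomology (Rep.res (Z.map H.subtype).subtype A) 1)) :
    Limits.IsZero (groupCohomology (Rep.res Z.subtype (Rep.res H.subtype A)) 1) := by
  apply Idele73.InfSum.isZero_of_h1Vanishes
  intro z hz
  exact Idele73.H90.exists_eq_sub_of_isZero_H1_sub A H Z h1 z hz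

end Generic

variable {L : IntermediateField ℚ Qbar} [Normal ℚ L] [FiniteDimensional ℚ L]
variable {S : Finset Nat.Primes} (h : UnrOutside L S) (hS : S.Nonempty) (H : Subgroup (GalL L))

/-- `Gal(L/K)` is finite -/
theorem finite_H : Finite ↥H := inferInstance

include hS in
/-- `Res_H (Lˣ → J_S × I^S → C_S)` is short exact -/
theorem shortExact : (sesRes h H).ShortExact := sesRes_shortExact h hS H

/-- Hilbert 90 for `Gal(L/K)` -/
theorem h1E : Limits.IsZero (groupCohomology (sesRes h H).X₁ 1) :=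
  isZero_H1_Lx L H

/-- Hilbert 90 for every subgroup `Z ≤ Gal(L/K)` (shape `h1ZE`) -/
theorem h1ZE (Z : Subgroup ↥H) :
    Limits.IsZero (groupCohomology (Rep.res Z.subtype (sesRes h H).X₁) 1) :=
  isZero_H1_res_res (Lx L) H Z (isZero_H1_Lx L (Z.map H.subtype))

/-- `H¹(Gal(L/K), J_S × I^S) = 0` -/
theorem h1J : Limits.IsZero (groupCohomology (sesRes h H).X₂ 1) :=
  Idele73.InfSum.isZero_H1_res_JIS L H S

/-- `H¹(Z, J_S × I^S) = 0` for every subgroup `Z ≤ Gal(L/K)` (shape `h1ZJ`) -/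
theorem h1ZJ (Z : Subgroup ↥H) :
    Limits.IsZero (groupCohomology (Rep.res Z.subtype (sesRes h H).X₂) 1) :=
  isZero_H1_res_res (JIS L S) H Z (Idele73.InfSum.isZero_H1_res_JIS L (Z.map H.subtype) S)

section Out

variable {p : ℕ} [Fact p.Prime] (h31 : FirstIneqOut (CS h) ⊤ p) {H₁ : Subgroup (GalL L)}
  (hH : OutTop.H0 p L ≤ H₁) (h32 : SecondIneqOut (CS h) H₁ p)

/-- `(Gal(L/K), Res C_S(L))` is a subquotient of `(Gal(L/ℚ), C_S(L))` -/
theorem isSubQuot_X₃ : IsSubQuot (CS h) ↥H (sesRes h H).X₃ :=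
  (isSubQuot_self (CS h)).res H

include h31 hH h32

/-- **`h1ZC`**: the `p`-primary part of `H¹(Z, C_S(L))` vanishes for EVERY `Z ≤ Gal(L/K)`. -/
theorem h1ZC (Z : Subgroup ↥H) :
    ∀ x : H1 (Rep.res Z.subtype (sesRes h H).X₃), (∃ j : ℕ, p ^ j • x = 0) → x = 0 :=
  (OutTop.pPart_res_of_out h31 hH h32 (isSubQuot_X₃ h H) Z).1

/-- **`h1N`**: `H¹(N, C_S(L)) = 0` for every `p`-subgroup `N ≤ Gal(L/K)`. -/
theorem h1N (N : Subgroup ↥H) (hN : IsPGroup p N) :
    Limits.IsZero (groupCohomology (Rep.res N.subtype (sesRes h H).X₃) 1) :=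
  OutTop.isZero_H1_res_of_out h31 hH h32 (isSubQuot_X₃ h H) N hN

/-- **`hb`**: `|H²(Gal(L/K) ⧸ N, C_S(L)^N)(p)| ∣ p ^ v_p [Gal(L/K) : N]` for every `N ⊴ Gal(L/K)`. -/
theorem hb (N : Subgroup ↥H) [N.Normal] :
    Nat.card (InfRes9.pPrimary p (H2 ((sesRes h H).X₃.quotientToInvariants N))) ∣
      p ^ (Nat.card (↥H ⧸ N)).factorization p :=
  OutTop.card_pPrimary_H2_quot_of_out h31 hH h32 (isSubQuot_X₃ h H) N

omit h31 hH h32 in
/-- `[Γ : ker χ]` is a power of `p` dividing `p ^ m` -/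
theorem card_quot_ker_dvd {Γ : Type} [Group Γ] {m : ℕ}
    (χ : Γ →* Multiplicative (ZMod (p ^ m))) : Nat.card (Γ ⧸ χ.ker) ∣ p ^ m := by
  have hp : p.Prime := Fact.out
  have : NeZero (p ^ m) := ⟨pow_ne_zero _ hp.ne_zero⟩
  have h2 : Nat.card (Γ ⧸ χ.ker) ∣ Nat.card (Multiplicative (ZMod (p ^ m))) :=
    Subgroup.card_dvd_of_injective _ (QuotientGroup.kerLift_injective χ)
  rwa [Nat.card_congr Multiplicative.toAdd, Nat.card_zmod] at h2

/-- **`cardZ`**: the second inequality for the tower layer `χ : Gal(L/K) → ℤ/p^m`. -/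
theorem cardZ {m : ℕ} (χ : ↥H →* Multiplicative (ZMod (p ^ m))) :
    Nat.card (InfRes9.pPrimary p (H2 ((sesRes h H).X₃.quotientToInvariants χ.ker))) ∣ p ^ m := by
  have hp : p.Prime := Fact.out
  refine (hb h H h31 hH h32 χ.ker).trans ?_
  obtain ⟨j, hj, hcard⟩ := (Nat.dvd_prime_pow hp).1 (card_quot_ker_dvd χ)
  rw [hcard, hp.factorization_pow, Finsupp.single_eq_same]
  exact pow_dvd_pow p hj

include hS in
/-- **`FinLayerHyp` for the D2 idele sequence of `L` over `K = L^H`**, from the three remaining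
arithmetic fields. -/
theorem finLayerHyp_of {T : Type*} [AddCommGroup T] {m : ℕ}
    (χ : ↥H →* Multiplicative (ZMod (p ^ m))) (invJ : H2 (sesRes h H).X₂ →+ T)
    (hs : ∃ s : ↥H, chiVal χ s = 1)
    (recT : ∀ b : (sesRes h H).X₁.ρ.invariants,
      invJ ((push₂ (sesRes h H).f).hom (carryH2 (sesRes h H).X₁ χ b)) = 0)
    (fullDeg : ∃ c₀ : H2 ((sesRes h H).X₂.quotientToInvariants χ.ker),
      addOrderOf (invJ ((infl₂ (sesRes h H).X₂ χ.ker).hom c₀)) = p ^ m) :
    FinLayerHyp (sesRes h H) p m χ invJ where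
  finite := finite_H H
  shortExact := shortExact h hS H
  exists_s := hs
  h1E := h1E h H
  h1ZE := h1ZE h H χ.ker
  h1ZJ := h1ZJ h H χ.ker
  h1ZC := h1ZC h H h31 hH h32 χ.ker
  recT := recT
  cardZ := cardZ h H h31 hH h32 χ
  fullDeg := fullDeg

end Out

end Fermat.Agent.S55.CLDescent35.FinFields
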