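/-
S55 / 33d-CL-DESCENT (helper35), part 6: change of level `L' ≤ L` (both Galois over `ℚ`) in
helper73's coinduced idele model.

`resLev h : Gal(L/ℚ) →* Gal(L'/ℚ)` (surjective, compatible with `resL` and `locHom`), the inclusion
`L'ˣ ⊆ Lˣ` as a morphism `Res (Lx L') ⟶ Lx L` with image the invariants of `Gal(L/L')`, and the
compatibility of the diagonal embeddings.  With `Idele73.Inflate` / `Descent99.coindInvariantsIso`
(`r := resLev h`) this gives `(Jq q L)^{Gal(L/L')} = Jq q L'`.
-/
import Mathlib
import Fermat.Agent.S55.Idele73.Basic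

set_option autoImplicit false

namespace Fermat.Agent.S55.CLDescent35.Level

open CategoryTheory Fermat.Agent.S55.Idele73.Basic

variable {L L' : IntermediateField ℚ Qbar} (h : L' ≤ L)

/-- the inclusion `L' → L` -/
noncomputable def inclField : L' →ₐ[ℚ] L := IntermediateField.inclusion h

@[simp] theorem coe_inclField (x : L') : ((inclField h x : L) : Qbar) = (x : Qbar) := rfl

theorem inclField_injective : Function.Injective (inclField h) := (inclField h).injective

variable [Normal ℚ L] [Normal ℚ L']

include h in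
theorem ker_resL_le : (resL L).ker ≤ (resL L').ker := by
  intro τ hτ
  rw [MonoidHom.mem_ker] at hτ ⊢
  ext x
  rw [resL_apply]
  have h1 := resL_apply L τ (inclField h x)
  rw [hτ] at h1
  exact h1.symm

/-- restriction `Gal(L/ℚ) → Gal(L'/ℚ)` -/
noncomputable def resLev : GalL L →* GalL L' :=
  (resL L).liftOfSurjective (resL_surjective L) ⟨resL L', ker_resL_le h⟩

theorem resLev_resL (τ : GQ) : resLev h (resL L τ) = resL L' τ :=
  MonoidHom.liftOfRightInverse_comp_apply _ _ _ _ τ

theorem resLev_comp_resL : (resLev h).comp (resL L) = resL L' :=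
  MonoidHom.ext (resLev_resL h)

theorem resLev_surjective : Function.Surjective (resLev h) := by
  intro σ
  obtain ⟨τ, rfl⟩ := resL_surjective L' σ
  exact ⟨resL L τ, resLev_resL h τ⟩

/-- `resLev h σ` is the restriction of `σ` to `L'` -/
theorem resLev_apply (σ : GalL L) (x : L') :
    ((resLev h σ x : L') : Qbar) = ((σ (inclField h x) : L) : Qbar) := by
  obtain ⟨τ, rfl⟩ := resL_surjective L σ
  rw [resLev_resL, resL_apply, resL_apply, coe_inclField]

theorem inclField_resLev (σ : GalL L) (x : L') :
    inclField h (resLev h σ x) = σ (inclField h x) :=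
  Subtype.ext (resLev_apply h σ x)

/-- **compatibility with the local maps**: `Gal(ℚ̄_q/ℚ_q) → Gal(L/ℚ) → Gal(L'/ℚ)`. -/
theorem resLev_comp_locHom (q : ℕ) [Fact q.Prime] :
    (resLev h).comp (locHom q L) = locHom q L' := by
  rw [locHom, ← MonoidHom.comp_assoc, resLev_comp_resL]
  rfl

theorem resLev_locHom (q : ℕ) [Fact q.Prime] (τ : Gq q) :
    resLev h (locHom q L τ) = locHom q L' τ :=
  DFunLike.congr_fun (resLev_comp_locHom h q) τ

omit [Normal ℚ L] [Normal ℚ L'] in
theorem iotaL_inclField (q : ℕ) [Fact q.Prime] (x : L') :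
    iotaL q L (inclField h x) = iotaL q L' x := rfl

/-- the kernel of `resLev h` is `Gal(L/L')` -/
theorem mem_ker_resLev_iff (σ : GalL L) :
    σ ∈ (resLev h).ker ↔ ∀ x : L', σ (inclField h x) = inclField h x := by
  rw [MonoidHom.mem_ker]
  constructor
  · intro hσ x
    rw [← inclField_resLev, hσ]
    rfl
  · intro hσ
    ext x
    rw [resLev_apply, hσ]
    rfl

/-! ### the units -/

/-- the inclusion `L'ˣ → Lˣ`, additively -/
noncomputable def inclUnitsAdd : (Lx L').V →+ (Lx L).V :=
  (Units.map (inclField h : L' →* L)).toAdditive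

omit [Normal ℚ L] [Normal ℚ L'] in
theorem inclUnitsAdd_apply (a : (Lx L').V) :
    (((Additive.toMul (inclUnitsAdd h a) : Lˣ) : L) : Qbar) =
      (((Additive.toMul a : L'ˣ) : L') : Qbar) := rfl

omit [Normal ℚ L] [Normal ℚ L'] in
theorem inclUnitsAdd_injective : Function.Injective (inclUnitsAdd h) := by
  intro a b hab
  apply Additive.toMul.injective
  apply Units.ext
  apply Subtype.ext
  have := congrArg (fun c => (((Additive.toMul c : Lˣ) : L) : Qbar)) hab
  exact this

/-- equivariance of the inclusion along `resLev h` -/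
theorem inclUnitsAdd_rho (σ : GalL L) (a : (Lx L').V) :
    inclUnitsAdd h ((Lx L').ρ (resLev h σ) a) = (Lx L).ρ σ (inclUnitsAdd h a) := by
  apply Additive.toMul.injective
  apply Units.ext
  exact inclField_resLev h σ _

/-- the inclusion `L'ˣ ⊆ Lˣ` as a morphism of `Gal(L/ℚ)`-modules -/
noncomputable def inclLx : Rep.res (resLev h) (Lx L') ⟶ Lx L :=
  Rep.ofHom <| LinearMap.intertwiningMap_of_isIntertwiningMap
    (ρ := (Rep.res (resLev h) (Lx L')).ρ) (σ := (Lx L).ρ)
    (inclUnitsAdd h).toIntLinearMap (fun σ a => inclUnitsAdd_rho h σ a)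

theorem inclLx_hom_apply (a : (Lx L').V) : (inclLx h).hom a = inclUnitsAdd h a := rfl

theorem inclLx_injective : Function.Injective (inclLx h).hom := inclUnitsAdd_injective h


instance isGaloisLevel : IsGalois ℚ L where

/-- `L'` as an intermediate field of `L/ℚ` -/
noncomputable def subLevel : IntermediateField ℚ L := (inclField h).fieldRange

omit [Normal ℚ L] [Normal ℚ L'] in
theorem mem_subLevel_iff (x : L) : x ∈ subLevel h ↔ ∃ y : L', inclField h y = x := Iff.rfl

theorem ker_resLev_eq : (resLev h).ker = (subLevel h).fixingSubgroup := by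
  ext σ
  rw [mem_ker_resLev_iff, IntermediateField.mem_fixingSubgroup_iff]
  constructor
  · rintro hσ _ ⟨y, rfl⟩
    exact hσ y
  · intro hσ y
    exact hσ _ ⟨y, rfl⟩

/-- **Galois descent for the field**: the elements of `L` fixed by `Gal(L/L')` are those of `L'`. -/
theorem exists_of_fixed (x : L) (hx : ∀ σ ∈ (resLev h).ker, σ x = x) :
    ∃ y : L', inclField h y = x := by
  rw [← mem_subLevel_iff, ← InfiniteGalois.fixedField_fixingSubgroup (subLevel h),
    IntermediateField.mem_fixedField_iff]
  intro σ hσ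
  exact hx σ (by rw [ker_resLev_eq]; exact hσ)

/-- **Galois descent for the units**: `(Lˣ)^{Gal(L/L')} = L'ˣ`. -/
theorem mem_range_inclLx_iff (a : (Lx L).V) :
    a ∈ LinearMap.range (inclLx h).hom.toLinearMap ↔
      ∀ σ ∈ (resLev h).ker, (Lx L).ρ σ a = a := by
  constructor
  · rintro ⟨b, rfl⟩ σ hσ
    have h1 : (inclLx h).hom ((Lx L').ρ (resLev h σ) b) = (Lx L).ρ σ ((inclLx h).hom b) :=
      inclUnitsAdd_rho h σ b
    rw [MonoidHom.mem_ker.1 hσ, map_one] at h1
    exact h1.symm
  · intro ha
    set u : Lˣ := Additive.toMul a with hu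
    have hfix : ∀ σ ∈ (resLev h).ker, σ (u : L) = u := by
      intro σ hσ
      have := congrArg (fun c => ((Additive.toMul c : Lˣ) : L)) (ha σ hσ)
      exact this
    obtain ⟨y, hy⟩ := exists_of_fixed h (u : L) hfix
    have hy0 : y ≠ 0 := by
      rintro rfl
      rw [map_zero] at hy
      exact u.ne_zero hy.symm
    refine ⟨Additive.ofMul (Units.mk0 y hy0), ?_⟩
    apply Additive.toMul.injective
    apply Units.ext
    exact hy

/-- compatibility of the diagonal embeddings with the change of level -/
theorem diag_inclLx (q : ℕ) [Fact q.Prime] (a : (Lx L').V) (g : GalL L) :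
    ((diag q L).hom ((inclLx h).hom a)).1 g = ((diag q L').hom a).1 (resLev h g) := by
  apply Additive.toMul.injective
  apply Units.ext
  show iotaL q L (g (inclField h ((Additive.toMul a : L'ˣ) : L'))) =
    iotaL q L' (resLev h g ((Additive.toMul a : L'ˣ) : L'))
  rw [← inclField_resLev, iotaL_inclField]

end Fermat.Agent.S55.CLDescent35.Level
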