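/-
S55 / 33d-CL-DESCENT (helper35), part 7: the subgroup `Z ≤ Gal(L/ℚ)` fixing a primitive `p`-th
root of unity `ζ ∈ L` is normal of index dividing `p - 1`, hence of index prime to `p`.
This is the `Z` of `CLDescent35.Main` / `CLDescent35.Glue` (second inequality only for the layers
whose base field contains `ζ_p`).  Mathlib only.
-/
import Mathlib

set_option autoImplicit false

namespace Fermat.Agent.S55.CLDescent35.Zeta

variable {F : Type*} [Field F] {L : Type*} [Field L] [Algebra F L] {p : ℕ} [Fact p.Prime]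
variable {ζ : L} (hζ : IsPrimitiveRoot ζ p)

/-- the subgroup of `Gal(L/F)` fixing `ζ` -/
def fixZeta (F : Type*) [Field F] {L : Type*} [Field L] [Algebra F L] (ζ : L) :
    Subgroup (L ≃ₐ[F] L) where
  carrier := {σ | σ ζ = ζ}
  one_mem' := rfl
  mul_mem' := fun {a b} ha hb => by
    show a (b ζ) = ζ
    rw [hb, ha]
  inv_mem' := fun {a} ha => by
    show a⁻¹ ζ = ζ
    have : a⁻¹ (a ζ) = ζ := a.symm_apply_apply ζ
    rwa [ha] at this

theorem mem_fixZeta (σ : L ≃ₐ[F] L) : σ ∈ fixZeta F ζ ↔ σ ζ = ζ := Iff.rfl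

include hζ in
/-- `σ` fixes `ζ` iff it fixes every `p`-th root of unity -/
theorem mem_fixZeta_iff_forall (σ : L ≃ₐ[F] L) :
    σ ∈ fixZeta F ζ ↔ ∀ ξ : L, ξ ^ p = 1 → σ ξ = ξ := by
  constructor
  · intro h ξ hξ
    obtain ⟨i, _, rfl⟩ := hζ.eq_pow_of_pow_eq_one hξ
    rw [map_pow, (mem_fixZeta σ).1 h]
  · intro h
    exact h ζ hζ.pow_eq_one

include hζ in
theorem fixZeta_eq_ker : fixZeta F ζ = (hζ.autToPow F).ker := by
  ext σ
  rw [mem_fixZeta, MonoidHom.mem_ker]
  constructor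
  · intro h
    have h1 := hζ.autToPow_spec F σ
    rw [h] at h1
    -- `ζ ^ k = ζ` with `k < p` forces `k = 1`
    have h2 : (hζ.autToPow F σ : ZMod p).val = 1 := by
      have hlt : (hζ.autToPow F σ : ZMod p).val < p := ZMod.val_lt _
      have h1' : ζ ^ (hζ.autToPow F σ : ZMod p).val = ζ ^ 1 := by rw [h1, pow_one]
      exact hζ.pow_inj hlt (Fact.out : p.Prime).one_lt h1'
    apply Units.ext
    rw [Units.val_one]
    have h3 : ((hζ.autToPow F σ : ZMod p).val : ZMod p) = ((1 : ℕ) : ZMod p) := by rw [h2]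
    rwa [ZMod.natCast_zmod_val, Nat.cast_one] at h3
  · intro h
    have h1 := hζ.autToPow_spec F σ
    rw [h, Units.val_one, ZMod.val_one, pow_one] at h1
    exact h1.symm

include hζ in
theorem fixZeta_normal : (fixZeta F ζ).Normal := by
  rw [fixZeta_eq_ker hζ]
  infer_instance

include hζ in
/-- `[Gal(L/F) : Z]` divides `p - 1` -/
theorem card_quot_dvd : Nat.card ((L ≃ₐ[F] L) ⧸ fixZeta F ζ) ∣ p - 1 := by
  have h1 : Nat.card ((L ≃ₐ[F] L) ⧸ (hζ.autToPow F).ker) ∣ Nat.card (ZMod p)ˣ :=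
    Subgroup.card_dvd_of_injective _ (QuotientGroup.kerLift_injective (hζ.autToPow F))
  rw [Nat.card_eq_fintype_card (α := (ZMod p)ˣ), ZMod.card_units] at h1
  have e : fixZeta F ζ = (hζ.autToPow F).ker := fixZeta_eq_ker hζ
  rw [e]
  exact h1

include hζ in
/-- `[Gal(L/F) : Z]` is prime to `p` -/
theorem coprime_card_quot : (Nat.card ((L ≃ₐ[F] L) ⧸ fixZeta F ζ)).Coprime p := by
  have hp : p.Prime := Fact.out
  have h1 : (p - 1).Coprime p := by
    have : (p - 1).Coprime (p - 1 + 1) := Nat.coprime_self_add_right.2 (Nat.coprime_one_right _)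
    rwa [Nat.sub_add_cancel hp.one_le] at this
  exact Nat.Coprime.coprime_dvd_left (card_quot_dvd hζ) h1

/-- `H ≤ Z` iff `ζ` lies in the fixed field of `H` -/
theorem le_fixZeta_iff (H : Subgroup (L ≃ₐ[F] L)) :
    H ≤ fixZeta F ζ ↔ ∀ σ ∈ H, σ ζ = ζ := Iff.rfl

end Fermat.Agent.S55.CLDescent35.Zeta
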